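import Fermat.Agent.S58.Contracts
import Fermat.Agent.Lib.FrobeniusVal
import Fermat.Agent.GAL.INJ.ResAlgClosed

/-!
# S58 / LocG : valuation subrings of `ℚ̄` over a prime: integers, Frobenius, inertia
-/

set_option autoImplicit false

namespace Fermat.Agent.S58.LocG

open Fermat.Agent.Lib.FrobeniusVal

variable {A : ValuationSubring Qb} {ℓ : ℕ}

/-- The residue field has characteristic `ℓ`. -/
theorem charP_residue (hℓ : ℓ.Prime) (hA : A.LiesOverPrime ℓ) :
    CharP (IsLocalRing.ResidueField ↥A) ℓ := by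
  have h0 : ((ℓ : ℕ) : IsLocalRing.ResidueField ↥A) = 0 := by
    have h1 : ((ℓ : ↥A) : Qb) ∈ A.nonunits := by
      have : ((ℓ : ↥A) : Qb) = (ℓ : Qb) := by simp
      rw [this]
      exact hA
    have h2 : (ℓ : ↥A) ∈ IsLocalRing.maximalIdeal ↥A :=
      ValuationSubring.coe_mem_nonunits_iff.mp h1
    have h3 := (IsLocalRing.residue_eq_zero_iff (ℓ : ↥A)).mpr h2
    rwa [map_natCast] at h3
  exact (CharP.charP_iff_prime_eq_zero hℓ).mpr h0

/-- an integer prime to `ℓ` is a unit of `A`. -/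
theorem valuation_natCast (hℓ : ℓ.Prime) (hA : A.LiesOverPrime ℓ) {m : ℕ} (hm : ¬ ℓ ∣ m) :
    A.valuation (m : Qb) = 1 := by
  have h1 : ((m : ℤ) : Qb) ∉ A.nonunits :=
    intCast_not_mem_nonunits A hℓ hA (by rwa [Int.natCast_dvd_natCast])
  rw [Int.cast_natCast, ValuationSubring.mem_nonunits_iff, not_lt] at h1
  exact le_antisymm ((A.valuation_le_one_iff _).2 (natCast_mem A m)) h1

/-- Frobenius on the residue field. -/
theorem frob_residue {σ : GQ} (hσ : A.IsFrobeniusAt σ ℓ) (x : ↥A) :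
    ∃ h : σ (x : Qb) ∈ A, IsLocalRing.residue ↥A ⟨σ x, h⟩ = IsLocalRing.residue ↥A x ^ ℓ := by
  have h1 := hσ.smul_residue_eq (IsLocalRing.residue ↥A x)
  rw [← IsLocalRing.ResidueField.residue_smul] at h1
  exact ⟨((⟨σ, hσ.mem_decompositionSubgroup⟩ : A.decompositionSubgroup ℚ) • x).2, h1⟩

/-- inertia acts trivially on the residue field. -/
theorem inertia_residue {σ : GQ} (hσ : σ ∈ A.inertiaSubgroupIn ℚ) (x : ↥A) :
    ∃ h : σ (x : Qb) ∈ A, IsLocalRing.residue ↥A ⟨σ x, h⟩ = IsLocalRing.residue ↥A x := by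
  obtain ⟨τ, hτ, rfl⟩ := hσ
  have h0 : MulSemiringAction.toRingAut (A.decompositionSubgroup ℚ)
      (IsLocalRing.ResidueField ↥A) τ = 1 := hτ
  have h1 : τ • (IsLocalRing.residue ↥A x) = IsLocalRing.residue ↥A x := by
    have := congrArg (fun f : RingAut (IsLocalRing.ResidueField ↥A) =>
      f (IsLocalRing.residue ↥A x)) h0
    exact this
  rw [← IsLocalRing.ResidueField.residue_smul] at h1
  exact ⟨(τ • x).2, h1⟩

end Fermat.Agent.S58.LocG
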