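import Fermat.Agent.S58.LocG.Defs

/-!
# S58 / LocG : the prime-to-`p` torsion of a curve with good reduction is in good position
-/

set_option autoImplicit false

namespace Fermat.Agent.S58.LocG

open WeierstrassCurve WeierstrassCurve.Affine Fermat.Agent.S58.Loc Fermat.Agent.S13
  Fermat.Agent.S13.Ladder

variable {K : Type*} [Field K] (𝒜 : ValuationSubring K) (W : WeierstrassCurve ↥𝒜)

/-- **Leaf S0.** the two polynomials `4 x³ + b₂ x² + 2 b₄ x + b₆` and `x⁴ - b₄ x² - 2 b₆ x - b₈` have no common zero on a nonsingular curve: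
PROOF. `psi2_sq h.1` : `ψ₂² = 4 x³ + … = 0`, so `ψ₂ = 0` (`pow_eq_zero_iff`), contradiction with `dbl_num_ne_zero h`. -/
theorem no_common_zero {F : Type*} [Field F] {E : Affine F} {x y : F} (h : E.Nonsingular x y)
    (h1 : 4 * x ^ 3 + E.b₂ * x ^ 2 + 2 * E.b₄ * x + E.b₆ = 0)
    (h2 : x ^ 4 - E.b₄ * x ^ 2 - 2 * E.b₆ * x - E.b₈ = 0) : False := by
  have h3 : 2 * y + E.a₁ * x + E.a₃ = 0 := by
    have := psi2_sq h.1
    rw [h1] at this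
    exact pow_eq_zero_iff (two_ne_zero) |>.mp this
  exact dbl_num_ne_zero h h3 h2

variable [DecidableEq K]

/-- **Leaf S1 (G2).** separation of the `x`-coordinates.
PROOF. Put `A = (x₁, y₁)`, `B = (x₂, y₂)`; `A + B ≠ 0`, `A - B ≠ 0` because `x₁ ≠ x₂` (`xc_eq_iff`: `A = -B` or `A = B` would give `xc A = xc B`).
`s := xc (A + B)`, `d := xc (A - B)` are in `𝒜` (`Loc.xc_mem`; `m • (A ± B) = 0` by `smul_add`, `smul_sub`).  `x₁, y₁, x₂ ∈ 𝒜` (`integral_of_torsion`); `lift` them to `𝒜`.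
`x₁ - x₂ ∈ 𝒜`; suppose it is not a unit, i.e. `residue x₁ = residue x₂ =: ξ`.
`xc_add_add_sub A B` : `(s + d) (x₁ - x₂)² = 2 (x₁ + x₂) x₁ x₂ + b₂ x₁ x₂ + b₄ (x₁ + x₂) + b₆`; it is an identity in `𝒜` (`Subtype.ext`; `map_b₂` …);
apply `residue`: `0 = 4 ξ³ + b̄₂ ξ² + 2 b̄₄ ξ + b̄₆`.
`xc_add_sub A B … (c := 0)` : `s d (x₁ - x₂)² = Phi3 x₁ x₂ 0 = x₁² x₂² - b₄ x₁ x₂ - b₆ (x₁ + x₂) - b₈`; apply `residue`: `0 = ξ⁴ - b̄₄ ξ² - 2 b̄₆ ξ - b̄₈`.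
`no_common_zero (nonsingular_residue 𝒜 W hΔ x₁ y₁ h₁.1)`. -/
theorem sep_of_torsion (hΔ : IsLocalRing.residue ↥𝒜 W.Δ ≠ 0) (m : ℕ)
    (hm : 𝒜.valuation (m : K) = 1) {x₁ y₁ x₂ y₂ : K}
    (h₁ : (W.map 𝒜.subtype).toAffine.Nonsingular x₁ y₁)
    (h₂ : (W.map 𝒜.subtype).toAffine.Nonsingular x₂ y₂)
    (hP₁ : m • Point.some x₁ y₁ h₁ = 0) (hP₂ : m • Point.some x₂ y₂ h₂ = 0) (hx : x₁ ≠ x₂) :
    𝒜.valuation (x₁ - x₂) = 1 := by
  have hA0 : Point.some x₁ y₁ h₁ ≠ 0 := Point.some_ne_zero h₁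
  have hB0 : Point.some x₂ y₂ h₂ ≠ 0 := Point.some_ne_zero h₂
  have hs : Point.some x₁ y₁ h₁ + Point.some x₂ y₂ h₂ ≠ 0 := by
    intro h
    exact hx ((xc_eq_iff hA0 hB0).2 (Or.inr (eq_neg_of_add_eq_zero_left h)))
  have hd : Point.some x₁ y₁ h₁ - Point.some x₂ y₂ h₂ ≠ 0 := by
    intro h
    exact hx ((xc_eq_iff hA0 hB0).2 (Or.inl (sub_eq_zero.1 h)))
  have hsm : xc (Point.some x₁ y₁ h₁ + Point.some x₂ y₂ h₂) ∈ 𝒜 :=
    xc_mem 𝒜 W m hm _ (by rw [smul_add, hP₁, hP₂, add_zero])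
  have hdm : xc (Point.some x₁ y₁ h₁ - Point.some x₂ y₂ h₂) ∈ 𝒜 :=
    xc_mem 𝒜 W m hm _ (by rw [smul_sub, hP₁, hP₂, sub_zero])
  obtain ⟨hx₁, hy₁⟩ := integral_of_torsion 𝒜 W m hm h₁ hP₁
  obtain ⟨hx₂, -⟩ := integral_of_torsion 𝒜 W m hm h₂ hP₂
  have e1 := xc_add_add_sub _ _ hA0 hB0 hs hd
  have e2 := xc_add_sub _ _ hA0 hB0 hs hd 0
  rw [xc_some, xc_some] at e1 e2
  have heq := h₁.1
  generalize xc (Point.some x₁ y₁ h₁ + Point.some x₂ y₂ h₂) = s at hsm e1 e2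
  generalize xc (Point.some x₁ y₁ h₁ - Point.some x₂ y₂ h₂) = d at hdm e1 e2
  clear hs hd hA0 hB0 hP₁ hP₂ h₁ h₂
  lift x₁ to 𝒜 using hx₁
  lift y₁ to 𝒜 using hy₁
  lift x₂ to 𝒜 using hx₂
  lift s to 𝒜 using hsm
  lift d to 𝒜 using hdm
  by_contra hne
  have hnu : ¬ IsUnit (x₁ - x₂) := by
    intro hu
    apply hne
    have := (ValuationSubring.valuation_eq_one_iff 𝒜 _).1 hu
    push_cast at this
    exact this
  have hres : IsLocalRing.residue ↥𝒜 (x₁ - x₂) = 0 :=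
    not_not.1 (mt (IsLocalRing.residue_ne_zero_iff_isUnit _).1 hnu)
  have hξ : IsLocalRing.residue ↥𝒜 x₂ = IsLocalRing.residue ↥𝒜 x₁ := by
    rw [map_sub, sub_eq_zero] at hres
    exact hres.symm
  have e1' : (s + d) * (x₁ - x₂) ^ 2 =
      2 * (x₁ + x₂) * (x₁ * x₂) + W.b₂ * (x₁ * x₂) + W.b₄ * (x₁ + x₂) + W.b₆ := by
    apply Subtype.ext
    simp only [WeierstrassCurve.map_b₂, WeierstrassCurve.map_b₄, WeierstrassCurve.map_b₆,
      ValuationSubring.subtype_apply] at e1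
    push_cast
    exact e1
  have e2' : s * d * (x₁ - x₂) ^ 2 =
      x₁ ^ 2 * x₂ ^ 2 - W.b₄ * (x₁ * x₂) - W.b₆ * (x₁ + x₂) - W.b₈ := by
    apply Subtype.ext
    unfold Phi3 at e2
    simp only [WeierstrassCurve.map_b₂, WeierstrassCurve.map_b₄, WeierstrassCurve.map_b₆,
      WeierstrassCurve.map_b₈, ValuationSubring.subtype_apply] at e2
    push_cast
    linear_combination e2
  have f1 := congrArg (IsLocalRing.residue ↥𝒜) e1'
  have f2 := congrArg (IsLocalRing.residue ↥𝒜) e2'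
  simp only [map_add, map_mul, map_pow, map_sub, map_ofNat, hξ, sub_self] at f1 f2
  refine no_common_zero (nonsingular_residue 𝒜 W hΔ x₁ y₁ heq) ?_ ?_
  · simp only [WeierstrassCurve.map_b₂, WeierstrassCurve.map_b₄, WeierstrassCurve.map_b₆]
    linear_combination -f1
  · simp only [WeierstrassCurve.map_b₄, WeierstrassCurve.map_b₆, WeierstrassCurve.map_b₈]
    linear_combination -f2

/-- **Leaf S2 (G3).** `ψ₂` is `0` or a unit.
PROOF. `ψ := y - negY x y = 2 y + a₁ x + a₃ ≠ 0`, so `2 • P ≠ 0` (`two_nsmul_eq_zero_iff`), `t := xc (2 • P) ∈ 𝒜` (`Loc.xc_mem`, `m • 2 • P = 2 • m • P = 0` by `smul_comm`).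
`xc_two_nsmul` : `(t - x) ψ² = -(3 x⁴ + b₂ x³ + 3 b₄ x² + 3 b₆ x + b₈)`.  If `ψ` is not a unit then `residue ψ = 0`; with `ξ = residue x`, `η = residue y`:
`3 ξ⁴ + b̄₂ ξ³ + 3 b̄₄ ξ² + 3 b̄₆ ξ + b̄₈ = 0` and (`psi2_sq` on the special fibre) `4 ξ³ + b̄₂ ξ² + 2 b̄₄ ξ + b̄₆ = 0`; then
`ξ⁴ - b̄₄ ξ² - 2 b̄₆ ξ - b̄₈ = ξ (4 ξ³ + …) - (3 ξ⁴ + …) = 0`: `no_common_zero`. -/
theorem psi_of_torsion (hΔ : IsLocalRing.residue ↥𝒜 W.Δ ≠ 0) (m : ℕ)
    (hm : 𝒜.valuation (m : K) = 1) {x y : K}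
    (h : (W.map 𝒜.subtype).toAffine.Nonsingular x y) (hP : m • Point.some x y h = 0)
    (hy : y ≠ (W.map 𝒜.subtype).toAffine.negY x y) :
    𝒜.valuation (y - (W.map 𝒜.subtype).toAffine.negY x y) = 1 := by
  have hψ : y - (W.map 𝒜.subtype).toAffine.negY x y =
      2 * y + (W.map 𝒜.subtype).toAffine.a₁ * x + (W.map 𝒜.subtype).toAffine.a₃ := by
    rw [negY]; ring
  have hψ0 : 2 * y + (W.map 𝒜.subtype).toAffine.a₁ * x + (W.map 𝒜.subtype).toAffine.a₃ ≠ 0 := by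
    rw [← hψ]
    exact sub_ne_zero.mpr hy
  have h2 : 2 • Point.some x y h ≠ 0 := fun h0 => hψ0 ((two_nsmul_eq_zero_iff h).1 h0)
  have ht : xc (2 • Point.some x y h) ∈ 𝒜 :=
    xc_mem 𝒜 W m hm _ (by rw [smul_comm, hP, smul_zero])
  have hd := xc_two_nsmul h h2
  obtain ⟨hx, hy'⟩ := integral_of_torsion 𝒜 W m hm h hP
  generalize xc (2 • Point.some x y h) = t at ht hd
  lift x to ↥𝒜 using hx
  lift y to ↥𝒜 using hy'
  lift t to ↥𝒜 using ht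
  rw [hψ]
  have hcoe : 2 * (y : K) + (W.map 𝒜.subtype).toAffine.a₁ * (x : K) +
      (W.map 𝒜.subtype).toAffine.a₃ = ((2 * y + W.a₁ * x + W.a₃ : ↥𝒜) : K) := by
    simp only [WeierstrassCurve.map_a₁, WeierstrassCurve.map_a₃, ValuationSubring.subtype_apply]
    push_cast
    rfl
  rw [hcoe]
  rw [← ValuationSubring.valuation_eq_one_iff, ← IsLocalRing.residue_ne_zero_iff_isUnit]
  intro hres
  -- the duplication formula in `𝒜`
  have hd' : (t - x) * (2 * y + W.a₁ * x + W.a₃) ^ 2 =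
      -(3 * x ^ 4 + W.b₂ * x ^ 3 + 3 * W.b₄ * x ^ 2 + 3 * W.b₆ * x + W.b₈) := by
    apply Subtype.ext
    rw [hcoe] at hd
    simp only [WeierstrassCurve.map_b₂, WeierstrassCurve.map_b₄, WeierstrassCurve.map_b₆,
      WeierstrassCurve.map_b₈, ValuationSubring.subtype_apply] at hd
    push_cast at hd ⊢
    exact hd
  have hd'' := congrArg (IsLocalRing.residue ↥𝒜) hd'
  rw [map_mul, map_pow, hres] at hd''
  simp only [map_neg, map_add, map_mul, map_pow, map_ofNat] at hd''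
  have hns := nonsingular_residue 𝒜 W hΔ x y h.1
  have hp := psi2_sq hns.1
  have hres' : 2 * IsLocalRing.residue ↥𝒜 y +
      (W.map (IsLocalRing.residue ↥𝒜)).toAffine.a₁ * IsLocalRing.residue ↥𝒜 x +
      (W.map (IsLocalRing.residue ↥𝒜)).toAffine.a₃ = 0 := by
    simp only [WeierstrassCurve.map_a₁, WeierstrassCurve.map_a₃]
    simpa only [map_add, map_mul, map_ofNat] using hres
  rw [hres'] at hp
  refine no_common_zero hns (by rw [← hp]; ring) ?_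
  simp only [WeierstrassCurve.map_b₂, WeierstrassCurve.map_b₄, WeierstrassCurve.map_b₆,
    WeierstrassCurve.map_b₈] at hp ⊢
  linear_combination (-(IsLocalRing.residue ↥𝒜 x)) * hp - hd''

/-- **(G1) + (G2) + (G3).** -/
theorem goodPos_tors (hΔ : IsLocalRing.residue ↥𝒜 W.Δ ≠ 0) (m : ℕ)
    (hm : 𝒜.valuation (m : K) = 1) :
    GoodPos 𝒜 (W.map 𝒜.subtype).toAffine (tors (W.map 𝒜.subtype).toAffine m) where
  int _ _ h hP := integral_of_torsion 𝒜 W m hm h hP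
  sep _ _ h₁ _ _ h₂ hP₁ hP₂ hx := sep_of_torsion 𝒜 W hΔ m hm h₁ h₂ hP₁ hP₂ hx
  psi _ _ h hP hy := psi_of_torsion 𝒜 W hΔ m hm h hP hy

end Fermat.Agent.S58.LocG
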