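import Fermat.Agent.S58.LocG.Red
import Fermat.Agent.S58.LocG.Sep
import Fermat.Agent.S58.LocG.Gal

/-!
# S58 / LocG : main results

* `stmtFrob_of : StmtThmC → StmtFrob`;
* `stmtInertGood : StmtInertGood`.
-/

set_option autoImplicit false

namespace Fermat.Agent.S58.LocG

open WeierstrassCurve WeierstrassCurve.Affine Fermat.Agent.S58.Loc

/-- the abstract package, for curves which are only propositionally equal to the two fibres. -/
theorem exists_red_tors {K : Type*} [Field K] [DecidableEq K] (𝒜 : ValuationSubring K)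
    [DecidableEq (IsLocalRing.ResidueField ↥𝒜)] (W : WeierstrassCurve ↥𝒜)
    (hΔ : IsLocalRing.residue ↥𝒜 W.Δ ≠ 0) (m : ℕ) (hm : 𝒜.valuation (m : K) = 1)
    (WK : Affine K) (hWK : WK = W.map 𝒜.subtype)
    (Wk : Affine (IsLocalRing.ResidueField ↥𝒜)) (hWk : Wk = W.map (IsLocalRing.residue ↥𝒜)) :
    (∀ (x y : K) (h : WK.Nonsingular x y), m • Point.some x y h = 0 → x ∈ 𝒜 ∧ y ∈ 𝒜) ∧
    ∃ red : tors WK m →+ Wk.Point, Function.Injective red ∧
      ∀ (x y : ↥𝒜) (h : WK.Nonsingular (x : K) (y : K))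
        (hm : Point.some (x : K) (y : K) h ∈ tors WK m),
        ∃ h', red ⟨_, hm⟩ =
          Point.some (IsLocalRing.residue ↥𝒜 x) (IsLocalRing.residue ↥𝒜 y) h' := by
  subst hWK hWk
  exact ⟨fun x y h hP => integral_of_torsion 𝒜 W m hm h hP,
    exists_red 𝒜 W hΔ _ (goodPos_tors 𝒜 W hΔ m hm)⟩

/-- the generic fibre of the integral model. -/
theorem map_subtype_eq (A : ValuationSubring Qb) (W : WeierstrassCurve ℤ) :
    ((W.map (Int.castRingHom ℚ))⁄Qb : Affine Qb) = (W.map (Int.castRingHom ↥A)).map A.subtype := by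
  rw [WeierstrassCurve.map_map]
  show (W.map (Int.castRingHom ℚ)).map (algebraMap ℚ Qb) = _
  rw [WeierstrassCurve.map_map]
  congr 1

/-- the special fibre of the integral model. -/
theorem map_residue_eq (A : ValuationSubring Qb) (W : WeierstrassCurve ℤ) (ℓ : ℕ)
    (φ : ZMod ℓ →+* IsLocalRing.ResidueField ↥A) :
    ((W.reductionMod ℓ).map φ : Affine (IsLocalRing.ResidueField ↥A)) =
      (W.map (Int.castRingHom ↥A)).map (IsLocalRing.residue ↥A) := by
  rw [WeierstrassCurve.map_map, WeierstrassCurve.reductionMod, WeierstrassCurve.map_map]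
  congr 1
  exact RingHom.ext_int _ _

theorem residue_Δ_ne_zero {A : ValuationSubring Qb} {ℓ : ℕ} (hℓ : ℓ.Prime)
    (hA : A.LiesOverPrime ℓ) {W : WeierstrassCurve ℤ} (hW : ¬ (ℓ : ℤ) ∣ W.Δ) :
    IsLocalRing.residue ↥A (W.map (Int.castRingHom ↥A)).Δ ≠ 0 := by
  have := charP_residue hℓ hA
  rw [WeierstrassCurve.map_Δ, eq_intCast, map_intCast, Ne,
    CharP.intCast_eq_zero_iff (IsLocalRing.ResidueField ↥A) ℓ]
  exact hW

/-- **Equivariance of the reduction map**, abstract form: `σ` acts on the residue field through `τ`. -/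
theorem red_smul {A : ValuationSubring Qb} [DecidableEq (IsLocalRing.ResidueField ↥A)]
    {W : WeierstrassCurve ℤ} {m : ℕ} {Wk : Affine (IsLocalRing.ResidueField ↥A)}
    (hint : ∀ (x y : Qb) (h : ((W.map (Int.castRingHom ℚ))⁄Qb).Nonsingular x y),
      m • Point.some x y h = 0 → x ∈ A ∧ y ∈ A)
    (red : tors ((W.map (Int.castRingHom ℚ))⁄Qb) m →+ Wk.Point)
    (hred : ∀ (x y : ↥A) (h : ((W.map (Int.castRingHom ℚ))⁄Qb).Nonsingular (x : Qb) (y : Qb))
      (hm : Point.some (x : Qb) (y : Qb) h ∈ tors ((W.map (Int.castRingHom ℚ))⁄Qb) m),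
      ∃ h', red ⟨_, hm⟩ = Point.some (IsLocalRing.residue ↥A x) (IsLocalRing.residue ↥A y) h')
    (σ : GQ) (τ : IsLocalRing.ResidueField ↥A → IsLocalRing.ResidueField ↥A)
    (hστ : ∀ x : ↥A, ∃ h : σ (x : Qb) ∈ A,
      IsLocalRing.residue ↥A ⟨σ x, h⟩ = τ (IsLocalRing.residue ↥A x))
    (T : Wk.Point →+ Wk.Point)
    (hT : ∀ x y h, ∃ h', T (Point.some x y h) = Point.some (τ x) (τ y) h')
    (P : EP W) (hP : P ∈ tors ((W.map (Int.castRingHom ℚ))⁄Qb) m)
    (hσP : σ • P ∈ tors ((W.map (Int.castRingHom ℚ))⁄Qb) m) :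
    red ⟨σ • P, hσP⟩ = T (red ⟨P, hP⟩) := by
  rcases P with _ | ⟨x, y, h⟩
  · have h1 : (⟨σ • (Point.zero : EP W), hσP⟩ : tors ((W.map (Int.castRingHom ℚ))⁄Qb) m) = 0 := rfl
    have h2 : (⟨(Point.zero : EP W), hP⟩ : tors ((W.map (Int.castRingHom ℚ))⁄Qb) m) = 0 := rfl
    rw [h1, h2, map_zero, map_zero]
  · obtain ⟨hx, hy⟩ := hint x y h hP
    lift x to ↥A using hx
    lift y to ↥A using hy
    obtain ⟨hx', ex⟩ := hστ x
    obtain ⟨hy', ey⟩ := hστ y
    obtain ⟨h1, e1⟩ := hred x y h hP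
    obtain ⟨h2, e2⟩ := hred ⟨σ x, hx'⟩ ⟨σ y, hy'⟩ _ hσP
    obtain ⟨h3, e3⟩ := hT _ _ h1
    rw [e1, e3]
    refine e2.trans ?_
    simp only [Point.some.injEq]
    exact ⟨ex, ey⟩

theorem smul_mem_tors {W : WeierstrassCurve ℤ} {m : ℕ} (σ : GQ) {P : EP W}
    (hP : P ∈ tors ((W.map (Int.castRingHom ℚ))⁄Qb) m) :
    σ • P ∈ tors ((W.map (Int.castRingHom ℚ))⁄Qb) m := by
  rw [mem_tors] at hP ⊢
  have h1 := (DistribSMul.toAddMonoidHom (EP W) σ).map_nsmul m P
  rw [hP, map_zero] at h1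
  exact h1.symm

/-- **(G6)** -/
theorem stmtInertGood : StmtInertGood := by
  classical
  intro W q hq hW A hA σ hσ m hm P hP
  obtain ⟨hint, red, hinj, hred⟩ := exists_red_tors A (W.map (Int.castRingHom ↥A))
    (residue_Δ_ne_zero hq hA hW) m (valuation_natCast hq hA hm)
    ((W.map (Int.castRingHom ℚ))⁄Qb) (map_subtype_eq A W) _ rfl
  have hP' : P ∈ tors ((W.map (Int.castRingHom ℚ))⁄Qb) m := hP
  have h1 := red_smul hint red hred σ id (fun x => inertia_residue hσ x) (AddMonoidHom.id _)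
    (fun x y h => ⟨h, rfl⟩) P hP' (smul_mem_tors σ hP')
  exact congrArg Subtype.val (hinj h1)

/-- **(G5)** -/
theorem stmtFrob_of (hC : StmtThmC) : StmtFrob := by
  classical
  intro W ℓ hℓ hW A hA σ hσ m hm P hP
  have : Fact ℓ.Prime := ⟨hℓ⟩
  have := charP_residue hℓ hA
  have := GAL.INJ.isAlgClosed_residueField A
  let _ : Algebra (ZMod ℓ) (IsLocalRing.ResidueField ↥A) := ZMod.algebra _ ℓ
  obtain ⟨hint, red, hinj, hred⟩ := exists_red_tors A (W.map (Int.castRingHom ↥A))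
    (residue_Δ_ne_zero hℓ hA hW) m (valuation_natCast hℓ hA hm)
    ((W.map (Int.castRingHom ℚ))⁄Qb) (map_subtype_eq A W)
    ((W.reductionMod ℓ).map (algebraMap (ZMod ℓ) (IsLocalRing.ResidueField ↥A)))
    (map_residue_eq A W ℓ _)
  let Fr : ((W.reductionMod ℓ).map (algebraMap (ZMod ℓ)
      (IsLocalRing.ResidueField ↥A))).toAffine.Point →+ ((W.reductionMod ℓ).map (algebraMap (ZMod ℓ)
      (IsLocalRing.ResidueField ↥A))).toAffine.Point :=
    Point.map (W' := (W.reductionMod ℓ).toAffine)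
      (FiniteField.frobeniusAlgHom (ZMod ℓ) (IsLocalRing.ResidueField ↥A))
  have hFr : ∀ x y h, ∃ h', Fr (.some x y h) = .some (x ^ ℓ) (y ^ ℓ) h' := by
    intro x y h
    have key : ∀ (n : ℕ) (_ : n = ℓ) (H : _), ∃ h', (Point.some (W' :=
        ((W.reductionMod ℓ).map (algebraMap (ZMod ℓ) (IsLocalRing.ResidueField ↥A))).toAffine)
        (x ^ n) (y ^ n) H) = .some (x ^ ℓ) (y ^ ℓ) h' := by
      intro n hn H
      subst hn
      exact ⟨H, rfl⟩
    exact key (Fintype.card (ZMod ℓ)) (ZMod.card ℓ) _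
  have hW0 : (W.reductionMod ℓ).Δ ≠ 0 := by
    rw [WeierstrassCurve.reductionMod, WeierstrassCurve.map_Δ, eq_intCast, Ne,
      ZMod.intCast_zmod_eq_zero_iff_dvd]
    exact hW
  have hrel := hC ℓ (W.reductionMod ℓ) hW0 (IsLocalRing.ResidueField ↥A)
    (algebraMap (ZMod ℓ) (IsLocalRing.ResidueField ↥A)) Fr hFr
  have hP' : P ∈ tors ((W.map (Int.castRingHom ℚ))⁄Qb) m := hP
  have hσP := smul_mem_tors σ hP'
  have hσσP := smul_mem_tors σ hσP
  have e1 := red_smul hint red hred σ (· ^ ℓ) (fun x => frob_residue hσ x) Fr hFr P hP' hσP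
  have e2 := red_smul hint red hred σ (· ^ ℓ) (fun x => frob_residue hσ x) Fr hFr (σ • P) hσP hσσP
  have hap : W.apOfModel ℓ = (ℓ : ℤ) + 1 - (Nat.card (W.reductionMod ℓ).toAffine.Point : ℤ) := by
    rw [WeierstrassCurve.apOfModel, WeierstrassCurve.traceOfFrobenius, WeierstrassCurve.card,
      Nat.card_zmod]
  have h0 : red ((⟨σ • σ • P, hσσP⟩ : tors ((W.map (Int.castRingHom ℚ))⁄Qb) m)
      - W.apOfModel ℓ • ⟨σ • P, hσP⟩ + (ℓ : ℤ) • ⟨P, hP'⟩) = 0 := by
    rw [map_add, map_sub, map_zsmul, map_zsmul, e2, e1, hap]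
    exact hrel _
  have h1 := hinj (h0.trans (map_zero red).symm)
  exact congrArg Subtype.val h1

end Fermat.Agent.S58.LocG
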