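import Fermat.Agent.S58.Loc.Integral

/-!
# S58 / LocG : good reduction, definitions

`𝒜` a valuation subring of `K`, `W` a Weierstrass curve over `𝒜` whose discriminant is a unit.
`W.map 𝒜.subtype` is the generic fibre, `W.map (residue 𝒜)` the special fibre.

`GoodPos 𝒜 W H` : the subgroup `H` of `W(K)` is *in good position*: its nonzero points are integral, distinct `x`-coordinates are
distinct modulo `𝔪`, and `ψ₂ = y - negY x y = 2 y + a₁ x + a₃` is `0` or a unit.  (General Weierstrass version of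
`Lib/Ell/Red.lean`, `GoodPos`.)
-/

set_option autoImplicit false

namespace Fermat.Agent.S58.LocG

open WeierstrassCurve WeierstrassCurve.Affine Fermat.Agent.S58.Loc

variable {K : Type*} [Field K] [DecidableEq K]

/-- `H` is in good position with respect to `𝒜`. -/
structure GoodPos (𝒜 : ValuationSubring K) (WK : Affine K) (H : AddSubgroup WK.Point) : Prop where
  int : ∀ (x y : K) (h : WK.Nonsingular x y), Point.some x y h ∈ H → x ∈ 𝒜 ∧ y ∈ 𝒜
  sep : ∀ (x₁ y₁ : K) (h₁ : WK.Nonsingular x₁ y₁) (x₂ y₂ : K) (h₂ : WK.Nonsingular x₂ y₂),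
    Point.some x₁ y₁ h₁ ∈ H → Point.some x₂ y₂ h₂ ∈ H → x₁ ≠ x₂ → 𝒜.valuation (x₁ - x₂) = 1
  psi : ∀ (x y : K) (h : WK.Nonsingular x y), Point.some x y h ∈ H → y ≠ WK.negY x y →
    𝒜.valuation (y - WK.negY x y) = 1

variable (𝒜 : ValuationSubring K) (W : WeierstrassCurve ↥𝒜)

omit [DecidableEq K] in
/-- **Leaf D1.** an integral point of the generic fibre reduces to a point of the special fibre.
PROOF. `equation_iff` on both sides; the equation in `K` between elements of `𝒜` is an equation in `𝒜` (`Subtype.ext`, `push_cast`;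
`WeierstrassCurve.map_a₁` etc. are `rfl`/simp lemmas); apply the ring hom `residue 𝒜`.  See `Lib.Ell.Red_nonsingular`. -/
theorem equation_residue (x y : ↥𝒜) (h : (W.map 𝒜.subtype).toAffine.Equation (x : K) (y : K)) :
    (W.map (IsLocalRing.residue ↥𝒜)).toAffine.Equation (IsLocalRing.residue ↥𝒜 x)
      (IsLocalRing.residue ↥𝒜 y) := by
  rw [equation_iff] at h ⊢
  have h' : y ^ 2 + W.a₁ * x * y + W.a₃ * y = x ^ 3 + W.a₂ * x ^ 2 + W.a₄ * x + W.a₆ := by
    apply Subtype.ext
    simp only [WeierstrassCurve.map_a₁, WeierstrassCurve.map_a₂, WeierstrassCurve.map_a₃,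
      WeierstrassCurve.map_a₄, WeierstrassCurve.map_a₆, ValuationSubring.subtype_apply] at h
    push_cast
    exact h
  have h'' := congrArg (IsLocalRing.residue ↥𝒜) h'
  simp only [map_add, map_mul, map_pow] at h''
  simp only [WeierstrassCurve.map_a₁, WeierstrassCurve.map_a₂, WeierstrassCurve.map_a₃,
    WeierstrassCurve.map_a₄, WeierstrassCurve.map_a₆]
  exact h''

omit [DecidableEq K] in
/-- (`equation_iff_nonsingular_of_Δ_ne_zero`, `WeierstrassCurve.map_Δ`.) -/
theorem nonsingular_residue (hΔ : IsLocalRing.residue ↥𝒜 W.Δ ≠ 0) (x y : ↥𝒜)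
    (h : (W.map 𝒜.subtype).toAffine.Equation (x : K) (y : K)) :
    (W.map (IsLocalRing.residue ↥𝒜)).toAffine.Nonsingular (IsLocalRing.residue ↥𝒜 x)
      (IsLocalRing.residue ↥𝒜 y) := by
  have hΔ' : (W.map (IsLocalRing.residue ↥𝒜)).toAffine.Δ ≠ 0 := by
    rw [WeierstrassCurve.map_Δ]
    exact hΔ
  exact (equation_iff_nonsingular_of_Δ_ne_zero hΔ').1 (equation_residue 𝒜 W x y h)

end Fermat.Agent.S58.LocG
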