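import Fermat.Agent.S58.LocG.Defs

/-!
# S58 / LocG : reduction of a subgroup in good position is an injective homomorphism

General Weierstrass version of `Fermat/Agent/Lib/Ell/Red.lean` (which is complete, for `y² = x³ + a x + b` and `2` a unit): PORT IT.
On a subgroup `H` in good position all the slopes occurring in the group law are integral, so the formulas of Mathlib's group law reduce.
-/

set_option autoImplicit false
set_option linter.unusedSectionVars false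

namespace Fermat.Agent.S58.LocG

open WeierstrassCurve WeierstrassCurve.Affine Fermat.Agent.S58.Loc

variable {K : Type*} [Field K] [DecidableEq K] (𝒜 : ValuationSubring K) (W : WeierstrassCurve ↥𝒜)
  (hΔ : IsLocalRing.residue ↥𝒜 W.Δ ≠ 0)

open Classical in
/-- the reduction map (junk value `0` at the non integral points). -/
noncomputable def redFun : (W.map 𝒜.subtype).toAffine.Point →
    (W.map (IsLocalRing.residue ↥𝒜)).toAffine.Point
  | .zero => .zero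
  | .some x y h =>
    if hxy : x ∈ 𝒜 ∧ y ∈ 𝒜 then
      .some (IsLocalRing.residue ↥𝒜 ⟨x, hxy.1⟩) (IsLocalRing.residue ↥𝒜 ⟨y, hxy.2⟩)
        (nonsingular_residue 𝒜 W hΔ ⟨x, hxy.1⟩ ⟨y, hxy.2⟩ h.1)
    else .zero

theorem redFun_some (x y : ↥𝒜) (h : (W.map 𝒜.subtype).toAffine.Nonsingular (x : K) (y : K)) :
    redFun 𝒜 W hΔ (.some (x : K) (y : K) h) =
      .some (IsLocalRing.residue ↥𝒜 x) (IsLocalRing.residue ↥𝒜 y)
        (nonsingular_residue 𝒜 W hΔ x y h.1) := by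
  rw [redFun, dif_pos ⟨x.2, y.2⟩]

theorem redFun_eq {X Y : K} (h : (W.map 𝒜.subtype).toAffine.Nonsingular X Y) (x y : ↥𝒜)
    (hx : X = x) (hy : Y = y) : ∃ h', redFun 𝒜 W hΔ (.some X Y h) =
      .some (IsLocalRing.residue ↥𝒜 x) (IsLocalRing.residue ↥𝒜 y) h' := by
  subst hx hy
  exact ⟨_, redFun_some 𝒜 W hΔ x y h⟩

variable [DecidableEq (IsLocalRing.ResidueField ↥𝒜)]

/-- **Leaf R1.** port of `Lib.Ell.Red_add_aux`: if the slope is integral and reduces to the slope, the sum reduces to the sum.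
PROOF. `Point.add_some hxy`, `redFun_some`, `Point.add_some hxy'`, `redFun_eq` with
`x₃ = L ^ 2 + a₁ * L - a₂ - x₁ - x₂`, `y₃ = -(L * (x₃ - x₁) + y₁) - a₁ * x₃ - a₃` (`addX`, `addY`, `negAddY`, `negY`, `map_a₁`, …). -/
theorem redFun_add_aux (x₁ y₁ x₂ y₂ L : ↥𝒜)
    (h₁ : (W.map 𝒜.subtype).toAffine.Nonsingular (x₁ : K) (y₁ : K))
    (h₂ : (W.map 𝒜.subtype).toAffine.Nonsingular (x₂ : K) (y₂ : K))
    (hxy : ¬((x₁ : K) = x₂ ∧ (y₁ : K) = (W.map 𝒜.subtype).toAffine.negY x₂ y₂))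
    (hxy' : ¬(IsLocalRing.residue ↥𝒜 x₁ = IsLocalRing.residue ↥𝒜 x₂ ∧ IsLocalRing.residue ↥𝒜 y₁ =
      (W.map (IsLocalRing.residue ↥𝒜)).toAffine.negY (IsLocalRing.residue ↥𝒜 x₂)
        (IsLocalRing.residue ↥𝒜 y₂)))
    (hL : (W.map 𝒜.subtype).toAffine.slope (x₁ : K) x₂ y₁ y₂ = L)
    (hL' : (W.map (IsLocalRing.residue ↥𝒜)).toAffine.slope
      (IsLocalRing.residue ↥𝒜 x₁) (IsLocalRing.residue ↥𝒜 x₂) (IsLocalRing.residue ↥𝒜 y₁)
      (IsLocalRing.residue ↥𝒜 y₂) = IsLocalRing.residue ↥𝒜 L) :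
    redFun 𝒜 W hΔ (.some _ _ h₁ + .some _ _ h₂) =
      redFun 𝒜 W hΔ (.some _ _ h₁) + redFun 𝒜 W hΔ (.some _ _ h₂) := by
  rw [Point.add_some hxy, redFun_some, redFun_some, Point.add_some hxy']
  obtain ⟨h', e⟩ := redFun_eq 𝒜 W hΔ (nonsingular_add h₁ h₂ hxy)
    (L ^ 2 + W.a₁ * L - W.a₂ - x₁ - x₂)
    (-(L * ((L ^ 2 + W.a₁ * L - W.a₂ - x₁ - x₂) - x₁) + y₁)
      - W.a₁ * (L ^ 2 + W.a₁ * L - W.a₂ - x₁ - x₂) - W.a₃)
    (by rw [hL]; simp [addX])
    (by rw [hL]; simp [addY, negAddY, negY, addX])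
  rw [e]
  simp only [Point.some.injEq]
  constructor
  · rw [hL']; simp [addX]
  · rw [hL']; simp [addY, negAddY, negY, addX]

theorem redFun_add_div_eq {F : Type*} [Field F] {n d v : F} (h : d * v = 1) : n / d = n * v := by
  have hd : d ≠ 0 := left_ne_zero_of_mul_eq_one h
  rw [div_eq_iff hd, mul_assoc, mul_comm v d, h, mul_one]

/-- **Leaf R2.** port of `Lib.Ell.Red_add`.  Cases `P = 0`, `Q = 0`; `x₁ = x₂ ∧ y₁ = negY x₂ y₂` (both sums are `0`: `Point.add_of_Y_eq`);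
`x₁ = x₂`, `y₁ ≠ negY` (then `y₁ = y₂` by `Y_eq_of_Y_ne`; `y₁ - negY x₁ y₁` is a unit by `hH.psi`, `v` its inverse in `𝒜`,
`L = (3 x₁² + 2 a₂ x₁ + a₄ - a₁ y₁) v`, `slope_of_Y_ne` on both sides); `x₁ ≠ x₂` (`hH.sep`, `L = (y₁ - y₂) v`, `slope_of_X_ne`). -/
theorem redFun_add (H : AddSubgroup (W.map 𝒜.subtype).toAffine.Point)
    (hH : GoodPos 𝒜 (W.map 𝒜.subtype).toAffine H) (P Q : (W.map 𝒜.subtype).toAffine.Point)
    (hP : P ∈ H) (hQ : Q ∈ H) :
    redFun 𝒜 W hΔ (P + Q) = redFun 𝒜 W hΔ P + redFun 𝒜 W hΔ Q := by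
  rcases P with _ | ⟨x₁, y₁, h₁⟩
  · change redFun 𝒜 W hΔ (0 + Q) = 0 + redFun 𝒜 W hΔ Q
    rw [zero_add, zero_add]
  rcases Q with _ | ⟨x₂, y₂, h₂⟩
  · change redFun 𝒜 W hΔ (_ + 0) = redFun 𝒜 W hΔ _ + 0
    rw [add_zero, add_zero]
  obtain ⟨hx₁, hy₁⟩ := hH.int _ _ h₁ hP
  obtain ⟨hx₂, hy₂⟩ := hH.int _ _ h₂ hQ
  lift x₁ to ↥𝒜 using hx₁
  lift y₁ to ↥𝒜 using hy₁
  lift x₂ to ↥𝒜 using hx₂
  lift y₂ to ↥𝒜 using hy₂
  by_cases hx : (x₁ : K) = x₂
  · by_cases hy : (y₁ : K) = (W.map 𝒜.subtype).toAffine.negY x₂ y₂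
    · -- the sum is zero
      rw [Point.add_of_Y_eq hx hy, redFun_some, redFun_some, Point.add_of_Y_eq]
      · rfl
      · rw [Subtype.ext hx]
      · have e : y₁ = -y₂ - W.a₁ * x₂ - W.a₃ := by
          apply Subtype.ext
          rw [hy]
          simp [negY]
        rw [e]
        simp [negY]
    · -- doubling
      have hyy : (y₁ : K) = y₂ := Y_eq_of_Y_ne h₁.1 h₂.1 hx hy
      have hx' : x₁ = x₂ := Subtype.ext hx
      have hy' : y₁ = y₂ := Subtype.ext hyy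
      subst hx' hy'
      have c2 : ((2 : ↥𝒜) : K) = 2 := map_ofNat 𝒜.subtype 2
      have c3 : ((3 : ↥𝒜) : K) = 3 := map_ofNat 𝒜.subtype 3
      have eK : (y₁ : K) - (W.map 𝒜.subtype).toAffine.negY x₁ y₁ =
          ((y₁ - (-y₁ - W.a₁ * x₁ - W.a₃) : ↥𝒜) : K) := by
        simp [negY]
      have hv : 𝒜.valuation ((y₁ - (-y₁ - W.a₁ * x₁ - W.a₃) : ↥𝒜) : K) = 1 := by
        rw [← eK]
        exact hH.psi _ _ h₁ hP hy
      obtain ⟨v, hv⟩ := ((ValuationSubring.valuation_eq_one_iff 𝒜 _).2 hv).exists_right_inv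
      have hvK : ((y₁ : K) - (W.map 𝒜.subtype).toAffine.negY x₁ y₁) * (v : K) = 1 := by
        rw [eK]
        exact_mod_cast congrArg Subtype.val hv
      have ek : IsLocalRing.residue ↥𝒜 y₁ -
          (W.map (IsLocalRing.residue ↥𝒜)).toAffine.negY
            (IsLocalRing.residue ↥𝒜 x₁) (IsLocalRing.residue ↥𝒜 y₁) =
          IsLocalRing.residue ↥𝒜 (y₁ - (-y₁ - W.a₁ * x₁ - W.a₃)) := by
        simp [negY]
      have hvk : (IsLocalRing.residue ↥𝒜 y₁ -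
          (W.map (IsLocalRing.residue ↥𝒜)).toAffine.negY
            (IsLocalRing.residue ↥𝒜 x₁) (IsLocalRing.residue ↥𝒜 y₁)) *
          IsLocalRing.residue ↥𝒜 v = 1 := by
        rw [ek, ← map_mul, hv, map_one]
      have hyk : ¬ IsLocalRing.residue ↥𝒜 y₁ =
          (W.map (IsLocalRing.residue ↥𝒜)).toAffine.negY
            (IsLocalRing.residue ↥𝒜 x₁) (IsLocalRing.residue ↥𝒜 y₁) := by
        intro h0
        rw [sub_eq_zero.2 h0, zero_mul] at hvk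
        exact zero_ne_one hvk
      refine redFun_add_aux 𝒜 W hΔ x₁ y₁ x₁ y₁
        ((3 * x₁ ^ 2 + 2 * W.a₂ * x₁ + W.a₄ - W.a₁ * y₁) * v) h₁ h₂
        (fun h => hy h.2) (fun h => hyk h.2) ?_ ?_
      · rw [slope_of_Y_ne rfl hy, redFun_add_div_eq hvK]
        simp [c2, c3]
      · rw [slope_of_Y_ne rfl hyk, redFun_add_div_eq hvk]
        simp [map_ofNat]
  · -- distinct `x`-coordinates
    have hv : 𝒜.valuation ((x₁ - x₂ : ↥𝒜) : K) = 1 := by
      push_cast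
      exact hH.sep _ _ h₁ _ _ h₂ hP hQ hx
    obtain ⟨v, hv⟩ := ((ValuationSubring.valuation_eq_one_iff 𝒜 _).2 hv).exists_right_inv
    have hvK : ((x₁ : K) - x₂) * (v : K) = 1 := by exact_mod_cast congrArg Subtype.val hv
    have hvk := congrArg (IsLocalRing.residue ↥𝒜) hv
    rw [map_mul, map_sub, map_one] at hvk
    have hxk : IsLocalRing.residue ↥𝒜 x₁ ≠ IsLocalRing.residue ↥𝒜 x₂ := by
      intro h0
      rw [h0, sub_self, zero_mul] at hvk
      exact zero_ne_one hvk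
    refine redFun_add_aux 𝒜 W hΔ x₁ y₁ x₂ y₂ ((y₁ - y₂) * v) h₁ h₂
      (fun h => hx h.1) (fun h => hxk h.1) ?_ ?_
    · rw [slope_of_X_ne hx, redFun_add_div_eq hvK]
      simp
    · rw [slope_of_X_ne hxk, redFun_add_div_eq hvk]
      simp

include hΔ in
/-- **(G4)** the reduction homomorphism. -/
theorem exists_red (H : AddSubgroup (W.map 𝒜.subtype).toAffine.Point)
    (hH : GoodPos 𝒜 (W.map 𝒜.subtype).toAffine H) :
    ∃ red : H →+ (W.map (IsLocalRing.residue ↥𝒜)).toAffine.Point, Function.Injective red ∧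
      ∀ (x y : ↥𝒜) (h : (W.map 𝒜.subtype).toAffine.Nonsingular (x : K) (y : K))
        (hm : Point.some (x : K) (y : K) h ∈ H),
        ∃ h', red ⟨_, hm⟩ =
          Point.some (IsLocalRing.residue ↥𝒜 x) (IsLocalRing.residue ↥𝒜 y) h' := by
  refine ⟨AddMonoidHom.mk' (fun P => redFun 𝒜 W hΔ P.1)
    (fun P Q => redFun_add 𝒜 W hΔ H hH P.1 Q.1 P.2 Q.2), ?_, ?_⟩
  · rw [injective_iff_map_eq_zero]
    rintro ⟨P, hP⟩ h0
    change redFun 𝒜 W hΔ P = 0 at h0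
    rcases P with _ | ⟨x, y, h⟩
    · rfl
    · exfalso
      obtain ⟨hx, hy⟩ := hH.int _ _ h hP
      lift x to ↥𝒜 using hx
      lift y to ↥𝒜 using hy
      rw [redFun_some] at h0
      exact Point.some_ne_zero _ h0
  · intro x y h hm
    exact ⟨_, redFun_some 𝒜 W hΔ x y h⟩

end Fermat.Agent.S58.LocG
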